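import Mathlib

/-!
# S52, Laurent-series half, transport (U-TRANS), file 1 (prefix `s52lt_`)

`k` a field, `Ω = k((u))`, `s ∈ Ω` of order `1`.

* `s52lt_exists_ps` : `s = ↑S` with `S = X * S'`, `S'(0) ≠ 0`;
* `s52lt_transcendental` : `s` is transcendental over `k`;
* `s52lt_phi s hs : RatFunc k ≃ₐ[k] k⟮s⟯` (`X ↦ s`), `s52lt_phi_apply`;
* `s52lt_eval0` : **evaluation at `s = 0` is the constant coefficient**: if `φ r` is a power series
  `F` then `r.denom.eval 0 ≠ 0` and `F(0) = r.num.eval 0 / r.denom.eval 0`;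
* `s52lt_exists_of_order_nonneg` : a Laurent series of order `≥ 0` is a power series.
-/

set_option autoImplicit false

open Polynomial

namespace Fermat.Agent.S52

variable {k : Type*} [Field k]

/-- The constant coefficient of `p(S)` is `p(S(0))`. -/
theorem s52lt_constantCoeff_aeval (S : PowerSeries k) (p : k[X]) :
    PowerSeries.constantCoeff (aeval S p) = p.eval (PowerSeries.constantCoeff S) := by
  induction p using Polynomial.induction_on' with
  | add p q hp hq => rw [map_add, map_add, hp, hq, eval_add]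
  | monomial n a =>
    rw [aeval_monomial, map_mul, map_pow, eval_monomial]
    congr 1

/-- `p(↑S) = ↑(p(S))`. -/
theorem s52lt_aeval_coe (S : PowerSeries k) (p : k[X]) :
    aeval (HahnSeries.ofPowerSeries ℤ k S) p = HahnSeries.ofPowerSeries ℤ k (aeval S p) := by
  induction p using Polynomial.induction_on' with
  | add p q hp hq => rw [map_add, map_add, hp, hq, map_add]
  | monomial n a =>
    rw [aeval_monomial, aeval_monomial, map_mul, map_pow]
    congr 1

/-- `↑(X ^ n * F) = single n 1 * ↑F`. -/
theorem s52lt_coe_X_pow_mul (n : ℕ) (F : PowerSeries k) :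
    HahnSeries.ofPowerSeries ℤ k (PowerSeries.X ^ n * F) =
      HahnSeries.single (n : ℤ) (1 : k) * HahnSeries.ofPowerSeries ℤ k F := by
  rw [map_mul, HahnSeries.ofPowerSeries_X_pow]

/-- A Laurent series of order `1` is `↑(X * S')` with `S'(0) ≠ 0`. -/
theorem s52lt_exists_ps (s : LaurentSeries k) (hs : s.order = 1) :
    ∃ S' : PowerSeries k, PowerSeries.constantCoeff S' ≠ 0 ∧
      s = HahnSeries.ofPowerSeries ℤ k (PowerSeries.X * S') := by
  have hs0 : s ≠ 0 := by
    rintro rfl
    rw [HahnSeries.order_zero] at hs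
    exact zero_ne_one hs
  refine ⟨s.powerSeriesPart, ?_, ?_⟩
  · rw [← PowerSeries.coeff_zero_eq_constantCoeff_apply, LaurentSeries.powerSeriesPart_coeff]
    simpa using (HahnSeries.coeff_order_eq_zero (x := s)).not.2 hs0
  · have h1 := s52lt_coe_X_pow_mul 1 s.powerSeriesPart
    rw [pow_one] at h1
    rw [h1]
    have := LaurentSeries.single_order_mul_powerSeriesPart s
    rw [hs] at this
    exact this.symm

/-- A Laurent series of order `≥ 0` is a power series, with the same constant coefficient. -/
theorem s52lt_exists_of_order_nonneg (f : LaurentSeries k) (hf : 0 ≤ f.order) :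
    ∃ F : PowerSeries k, HahnSeries.ofPowerSeries ℤ k F = f ∧
      PowerSeries.constantCoeff F = f.coeff 0 := by
  obtain ⟨n, hn⟩ := Int.eq_ofNat_of_zero_le hf
  have h1 : HahnSeries.ofPowerSeries ℤ k (PowerSeries.X ^ n * f.powerSeriesPart) = f := by
    rw [s52lt_coe_X_pow_mul, ← hn]
    exact LaurentSeries.single_order_mul_powerSeriesPart f
  refine ⟨PowerSeries.X ^ n * f.powerSeriesPart, h1, ?_⟩
  rw [← PowerSeries.coeff_zero_eq_constantCoeff_apply]
  have := LaurentSeries.coeff_coe_powerSeries (PowerSeries.X ^ n * f.powerSeriesPart) 0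
  rw [← this]
  congr 1

section Trans

variable (s : LaurentSeries k)

/-- `p ↦ p(s)` is injective on polynomials. -/
theorem s52lt_aeval_ne_zero (hs : s.order = 1) {p : k[X]} (hp : p ≠ 0) : aeval s p ≠ 0 := by
  obtain ⟨S', hS', rfl⟩ := s52lt_exists_ps s hs
  rw [s52lt_aeval_coe]
  intro h
  have h0 : aeval (PowerSeries.X * S') p = 0 :=
    HahnSeries.ofPowerSeries_injective (by rw [h, map_zero])
  obtain ⟨q, hq, hqX⟩ := Polynomial.exists_eq_pow_rootMultiplicity_mul_and_not_dvd p hp 0
  rw [C_0, sub_zero] at hq hqX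
  rw [hq, map_mul, map_pow, aeval_X] at h0
  have hXS : (PowerSeries.X * S' : PowerSeries k) ≠ 0 := by
    refine mul_ne_zero PowerSeries.X_ne_zero ?_
    rintro rfl
    exact hS' (map_zero _)
  rcases mul_eq_zero.1 h0 with h1 | h1
  · exact hXS (pow_eq_zero_iff (M₀ := PowerSeries k) (by
      intro h0'
      rw [h0', pow_zero] at h1
      exact one_ne_zero h1) |>.1 h1)
  · have := congrArg PowerSeries.constantCoeff h1
    rw [s52lt_constantCoeff_aeval, map_mul, PowerSeries.constantCoeff_X, zero_mul, map_zero,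
      ← coeff_zero_eq_eval_zero] at this
    exact hqX (X_dvd_iff.2 this)

/-- `s` is transcendental over `k`. -/
theorem s52lt_transcendental (hs : s.order = 1) : Transcendental k s := by
  rw [transcendental_iff]
  intro p hp
  by_contra hne
  exact s52lt_aeval_ne_zero s hs hne hp

/-- **The transport isomorphism** `k(X) ≃ k(s)`, `X ↦ s`. -/
noncomputable def s52lt_phi (hs : s.order = 1) :
    RatFunc k ≃ₐ[k] IntermediateField.adjoin k {s} :=
  RatFunc.algEquivOfTranscendental s (s52lt_transcendental s hs)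

theorem s52lt_phi_apply (hs : s.order = 1) (r : RatFunc k) :
    (s52lt_phi s hs r : LaurentSeries k) = aeval s r.num / aeval s r.denom := by
  exact RatFunc.algEquivOfTranscendental_apply s (s52lt_transcendental s hs) r

theorem s52lt_phi_X (hs : s.order = 1) : (s52lt_phi s hs RatFunc.X : LaurentSeries k) = s := by
  exact RatFunc.algEquivOfTranscendental_X s (s52lt_transcendental s hs)

theorem s52lt_phi_algebraMap (hs : s.order = 1) (p : k[X]) :
    (s52lt_phi s hs (algebraMap k[X] (RatFunc k) p) : LaurentSeries k) = aeval s p := by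
  have := RatFunc.algEquivOfTranscendental_algebraMap s (s52lt_transcendental s hs) p
  rw [s52lt_phi, this]
  simp

/-- If `n(s) / d(s)` is the power series `F`, then `F(0) * d(0) = n(0)`. -/
theorem s52lt_eval0_mul (hs : s.order = 1) (n d : k[X]) (hd : d ≠ 0) (F : PowerSeries k)
    (hF : HahnSeries.ofPowerSeries ℤ k F = aeval s n / aeval s d) :
    PowerSeries.constantCoeff F * d.eval 0 = n.eval 0 := by
  obtain ⟨S', hS', hsS⟩ := s52lt_exists_ps s hs
  have hden : aeval s d ≠ 0 := s52lt_aeval_ne_zero s hs hd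
  have h1 : HahnSeries.ofPowerSeries ℤ k (F * aeval (PowerSeries.X * S') d) =
      HahnSeries.ofPowerSeries ℤ k (aeval (PowerSeries.X * S') n) := by
    rw [map_mul, ← s52lt_aeval_coe, ← s52lt_aeval_coe, ← hsS, hF, div_mul_cancel₀ _ hden]
  have h2 := congrArg PowerSeries.constantCoeff (HahnSeries.ofPowerSeries_injective h1)
  rw [map_mul, s52lt_constantCoeff_aeval, s52lt_constantCoeff_aeval, map_mul,
    PowerSeries.constantCoeff_X, zero_mul] at h2
  exact h2

/-- **Evaluation at `s = 0` is the constant coefficient.** -/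
theorem s52lt_eval0 (hs : s.order = 1) (r : RatFunc k) (F : PowerSeries k)
    (hF : HahnSeries.ofPowerSeries ℤ k F = (s52lt_phi s hs r : LaurentSeries k)) :
    r.denom.eval 0 ≠ 0 ∧ PowerSeries.constantCoeff F = r.num.eval 0 / r.denom.eval 0 := by
  rw [s52lt_phi_apply] at hF
  have h2 := s52lt_eval0_mul s hs r.num r.denom (RatFunc.denom_ne_zero r) F hF
  have hd : r.denom.eval 0 ≠ 0 := by
    intro hd0
    rw [hd0, mul_zero] at h2
    have hX1 : (X : k[X]) ∣ r.denom := by
      rw [X_dvd_iff, coeff_zero_eq_eval_zero]; exact hd0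
    have hX2 : (X : k[X]) ∣ r.num := by
      rw [X_dvd_iff, coeff_zero_eq_eval_zero]; exact h2.symm
    have hcop : IsCoprime r.num r.denom := RatFunc.isCoprime_num_denom r
    exact not_isUnit_X (hcop.isUnit_of_dvd' hX2 hX1)
  exact ⟨hd, by rw [eq_div_iff hd]; exact h2⟩

end Trans

end Fermat.Agent.S52
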