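import Fermat.Agent.S52.LAU.Twist
import Fermat.Agent.S52.LAU.Trans.Phi

/-!
# S52, Laurent-series half, transport (U-TRANS), file 3 (prefix `s52lt_`)

The `ℚ`-forms, for `s ∈ Ω = ℚ̄((u))` of order `1`:

* `s52lt_transcendentalQ`, `s52lt_phiQ s hs : RatFunc ℚ →+* Ω` (`X ↦ s`, image `ℚ⟮s⟯`), `s52lt_phiQ_apply`;
* `s52lt_memQ_iff` : `f ∈ ℚ⟮s⟯ ↔ ∃ r : RatFunc ℚ, f = r.num(s) / r.denom(s)`;
* `s52lt_evalQ` : **evaluation at `s = 0` is the constant coefficient**: if `φ_ℚ r` is the power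
  series `F` then `r.denom.eval 0 ≠ 0` and `F(0) = RatFunc.eval (RingHom.id ℚ) 0 r`
  (`= s52_ev r 0`);
* `s52lt_evalQ'` : the same with the hypothesis `0 ≤ (φ_ℚ r).order`, conclusion on `coeff 0`.
-/

set_option autoImplicit false

open Polynomial

namespace Fermat.Agent.S52

variable (s : s52l_Om)

theorem s52lt_transcendentalQ (hs : s.order = 1) : Transcendental ℚ s :=
  haveI := s52l_isScalarTower
  Transcendental.of_tower_top (K := ℚ) (L := s52_Qb) (s52lt_transcendental s hs)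

theorem s52lt_aevalQ_injective (hs : s.order = 1) :
    Function.Injective ((aeval s : ℚ[X] →ₐ[ℚ] s52l_Om) : ℚ[X] →+* s52l_Om) :=
  (transcendental_iff_injective.1 (s52lt_transcendentalQ s hs))

/-- `ℚ(X) → Ω`, `X ↦ s` (a field embedding with image `ℚ(s)`). -/
noncomputable def s52lt_phiQ (hs : s.order = 1) : RatFunc ℚ →+* s52l_Om :=
  RatFunc.liftRingHom ((aeval s : ℚ[X] →ₐ[ℚ] s52l_Om) : ℚ[X] →+* s52l_Om)
    (nonZeroDivisors_le_comap_nonZeroDivisors_of_injective _ (s52lt_aevalQ_injective s hs))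

theorem s52lt_phiQ_apply (hs : s.order = 1) (r : RatFunc ℚ) :
    s52lt_phiQ s hs r = aeval s r.num / aeval s r.denom :=
  RatFunc.liftRingHom_apply _ _ r

theorem s52lt_phiQ_div (hs : s.order = 1) (p q : ℚ[X]) :
    s52lt_phiQ s hs (algebraMap ℚ[X] (RatFunc ℚ) p / algebraMap ℚ[X] (RatFunc ℚ) q) =
      aeval s p / aeval s q :=
  RatFunc.liftRingHom_apply_div _ _ p q

theorem s52lt_phiQ_algebraMap (hs : s.order = 1) (p : ℚ[X]) :
    s52lt_phiQ s hs (algebraMap ℚ[X] (RatFunc ℚ) p) = aeval s p := by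
  have := s52lt_phiQ_div s hs p 1
  rwa [map_one, div_one, map_one, div_one] at this

theorem s52lt_phiQ_X (hs : s.order = 1) : s52lt_phiQ s hs RatFunc.X = s := by
  rw [← RatFunc.algebraMap_X, s52lt_phiQ_algebraMap, aeval_X]

theorem s52lt_phiQ_injective (hs : s.order = 1) : Function.Injective (s52lt_phiQ s hs) :=
  (s52lt_phiQ s hs).injective

theorem s52lt_memQ_iff (hs : s.order = 1) (f : s52l_Om) :
    f ∈ IntermediateField.adjoin ℚ {s} ↔ ∃ r : RatFunc ℚ, s52lt_phiQ s hs r = f := by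
  rw [IntermediateField.mem_adjoin_simple_iff]
  constructor
  · rintro ⟨p, q, rfl⟩
    exact ⟨_, s52lt_phiQ_div s hs p q⟩
  · rintro ⟨r, rfl⟩
    exact ⟨r.num, r.denom, s52lt_phiQ_apply s hs r⟩

/-- **Evaluation at `s = 0` is the constant coefficient** (`ℚ`-form). -/
theorem s52lt_evalQ (hs : s.order = 1) (r : RatFunc ℚ) (F : PowerSeries s52_Qb)
    (hF : HahnSeries.ofPowerSeries ℤ s52_Qb F = s52lt_phiQ s hs r) :
    r.denom.eval 0 ≠ 0 ∧
      PowerSeries.constantCoeff F = algebraMap ℚ s52_Qb (RatFunc.eval (RingHom.id ℚ) 0 r) := by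
  rw [s52lt_phiQ_apply, ← s52l_aeval_rat, ← s52l_aeval_rat] at hF
  have hdm : r.denom.map (algebraMap ℚ s52_Qb) ≠ 0 :=
    (Polynomial.map_ne_zero_iff (algebraMap ℚ s52_Qb).injective).2 (RatFunc.denom_ne_zero r)
  have h2 := s52lt_eval0_mul s hs _ _ hdm F hF
  rw [Polynomial.eval_zero_map, Polynomial.eval_zero_map] at h2
  have hd : r.denom.eval 0 ≠ 0 := by
    intro hd0
    rw [hd0, map_zero, mul_zero] at h2
    have hn0 : r.num.eval 0 = 0 := (algebraMap ℚ s52_Qb).injective (by rw [← h2, map_zero])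
    have hX1 : (X : ℚ[X]) ∣ r.denom := by
      rw [X_dvd_iff, coeff_zero_eq_eval_zero]; exact hd0
    have hX2 : (X : ℚ[X]) ∣ r.num := by
      rw [X_dvd_iff, coeff_zero_eq_eval_zero]; exact hn0
    have hcop : IsCoprime r.num r.denom := RatFunc.isCoprime_num_denom r
    exact not_isUnit_X (hcop.isUnit_of_dvd' hX2 hX1)
  refine ⟨hd, ?_⟩
  have hd' : algebraMap ℚ s52_Qb (r.denom.eval 0) ≠ 0 := by
    rw [Ne, map_eq_zero]; exact hd
  rw [RatFunc.eval, map_div₀, eq_div_iff]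
  · simpa [Polynomial.eval₂_id, Polynomial.coeff_zero_eq_eval_zero] using h2
  · simpa [Polynomial.eval₂_id, Polynomial.coeff_zero_eq_eval_zero] using hd'

/-- The same, from `0 ≤ order`. -/
theorem s52lt_evalQ' (hs : s.order = 1) (r : RatFunc ℚ)
    (hord : 0 ≤ (s52lt_phiQ s hs r).order) :
    r.denom.eval 0 ≠ 0 ∧ (s52lt_phiQ s hs r).coeff 0 =
      algebraMap ℚ s52_Qb (RatFunc.eval (RingHom.id ℚ) 0 r) := by
  obtain ⟨F, hF, hF0⟩ := s52lt_exists_of_order_nonneg (s52lt_phiQ s hs r) hord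
  obtain ⟨h1, h2⟩ := s52lt_evalQ s hs r F hF
  exact ⟨h1, by rw [← hF0, h2]⟩

end Fermat.Agent.S52
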