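import Mathlib
import Fermat.Agent.S52.NOS.Short
import Fermat.Agent.LR.NonEis.VarChange

/-!
# S52, Laurent-series half, transport (U-TRANS), file 2 (prefix `s52lt_`)

* `s52lt_pmap f hW : W.Point →+ W₂.Point` for a field hom `f : F →+* K` and `hW : W.map f = W₂`
  (the equality is only used inside proofs, so the target may be a literal curve);
  `s52lt_pmap_injective`, `s52lt_pmap_range` (the image is `0` and the points with coordinates in
  `f(F)`), `s52lt_pmap_nsmul_eq_zero_iff`;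
* `s52lt_card_torsion` : if all `n`-torsion points of `W₂(K)` have coordinates in `f(F)` then
  `#W(F)[n] = #W₂(K)[n]`;
* `s52lt_twist` : for `e ≠ 0`, `(x, y) ↦ (e² x, e³ y)` is an additive bijection from
  `y² = x³ + A x + B` to `y² = x³ + A e⁴ x + B e⁶` (`s52lt_twist_some`, `s52lt_twist_bijective`,
  `s52lt_twist_nsmul_eq_zero_iff`).
-/

set_option autoImplicit false
set_option linter.unusedSectionVars false

namespace Fermat.Agent.S52

open WeierstrassCurve WeierstrassCurve.Affine WeierstrassCurve.Affine.Point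

section Map

variable {F K : Type*} [Field F] [Field K] [DecidableEq F] [DecidableEq K] (f : F →+* K)

/-- The map on points induced by a field homomorphism (as a function). -/
noncomputable def s52lt_pfun {W : Affine F} {W₂ : Affine K} (hW : W.map f = W₂) :
    W.Point → W₂.Point
  | .zero => 0
  | .some x y h => .some (f x) (f y) (hW ▸ (W.map_nonsingular f.injective x y).mpr h)

theorem s52lt_pfun_zero {W : Affine F} {W₂ : Affine K} (hW : W.map f = W₂) :
    s52lt_pfun f hW 0 = 0 := rfl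

theorem s52lt_pfun_some {W : Affine F} {W₂ : Affine K} (hW : W.map f = W₂) {x y : F}
    (h : W.Nonsingular x y) :
    s52lt_pfun f hW (.some x y h) =
      .some (f x) (f y) (hW ▸ (W.map_nonsingular f.injective x y).mpr h) := rfl

theorem s52lt_pfun_add {W : Affine F} {W₂ : Affine K} (hW : W.map f = W₂) (P Q : W.Point) :
    s52lt_pfun f hW (P + Q) = s52lt_pfun f hW P + s52lt_pfun f hW Q := by
  subst hW
  rcases P with _ | ⟨x₁, y₁, h₁⟩
  · change s52lt_pfun f rfl (0 + Q) = 0 + s52lt_pfun f rfl Q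
    rw [zero_add, zero_add]
  rcases Q with _ | ⟨x₂, y₂, h₂⟩
  · change s52lt_pfun f rfl (Point.some x₁ y₁ h₁ + 0) = s52lt_pfun f rfl (Point.some x₁ y₁ h₁) + 0
    rw [add_zero, add_zero]
  by_cases hxy : x₁ = x₂ ∧ y₁ = W.negY x₂ y₂
  · rw [add_of_Y_eq hxy.1 hxy.2, s52lt_pfun_zero, s52lt_pfun_some, s52lt_pfun_some,
      add_of_Y_eq (congrArg f hxy.1) (by rw [hxy.2, map_negY])]
  · have hxy' : ¬(f x₁ = f x₂ ∧ f y₁ = (W.map f).toAffine.negY (f x₂) (f y₂)) := by
      rintro ⟨hx, hy⟩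
      rw [map_negY] at hy
      exact hxy ⟨f.injective hx, f.injective hy⟩
    rw [add_some hxy, s52lt_pfun_some, s52lt_pfun_some, s52lt_pfun_some, add_some hxy']
    refine (Fermat.Agent.LR.lrvc_some_congr _ _ ?_ ?_).symm
    · rw [map_slope, map_addX]
    · rw [map_slope, map_addY]

/-- **The map on points induced by a field homomorphism.** -/
noncomputable def s52lt_pmap {W : Affine F} {W₂ : Affine K} (hW : W.map f = W₂) :
    W.Point →+ W₂.Point where
  toFun := s52lt_pfun f hW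
  map_zero' := rfl
  map_add' := s52lt_pfun_add f hW

theorem s52lt_pmap_zero {W : Affine F} {W₂ : Affine K} (hW : W.map f = W₂) :
    s52lt_pmap f hW 0 = 0 := rfl

theorem s52lt_pmap_some {W : Affine F} {W₂ : Affine K} (hW : W.map f = W₂) {x y : F}
    (h : W.Nonsingular x y) :
    s52lt_pmap f hW (.some x y h) =
      .some (f x) (f y) (hW ▸ (W.map_nonsingular f.injective x y).mpr h) := rfl

theorem s52lt_pmap_injective {W : Affine F} {W₂ : Affine K} (hW : W.map f = W₂) :
    Function.Injective (s52lt_pmap f hW) := by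
  subst hW
  rintro (_ | ⟨x₁, y₁, h₁⟩) (_ | ⟨x₂, y₂, h₂⟩) h
  · rfl
  · exact absurd h.symm (Point.some_ne_zero _)
  · exact absurd h (Point.some_ne_zero _)
  · rw [s52lt_pmap_some, s52lt_pmap_some] at h
    have hx := f.injective (Point.some.inj h).1
    subst hx
    have hy := f.injective (Point.some.inj h).2
    subst hy
    rfl

/-- The image: `0` and the points with coordinates in `f(F)`. -/
theorem s52lt_pmap_range {W : Affine F} {W₂ : Affine K} (hW : W.map f = W₂) (P : W₂.Point) :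
    (∃ Q, s52lt_pmap f hW Q = P) ↔
      P = 0 ∨ ∃ (x y : F) (h : W₂.Nonsingular (f x) (f y)), P = .some (f x) (f y) h := by
  subst hW
  constructor
  · rintro ⟨Q, rfl⟩
    rcases Q with _ | ⟨x, y, h⟩
    · exact Or.inl rfl
    · exact Or.inr ⟨x, y, _, rfl⟩
  · rintro (rfl | ⟨x, y, h, rfl⟩)
    · exact ⟨0, rfl⟩
    · exact ⟨.some x y ((W.map_nonsingular f.injective x y).mp h), rfl⟩

theorem s52lt_pmap_nsmul_eq_zero_iff {W : Affine F} {W₂ : Affine K} (hW : W.map f = W₂)
    (n : ℕ) (Q : W.Point) : n • s52lt_pmap f hW Q = 0 ↔ n • Q = 0 := by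
  rw [← map_nsmul]
  constructor
  · intro h
    exact s52lt_pmap_injective f hW (by rw [h, _root_.map_zero])
  · intro h
    rw [h, _root_.map_zero]

/-- **Torsion transport**: if all `n`-torsion points of `W₂(K)` have coordinates in `f(F)`, then
`W(F)[n]` and `W₂(K)[n]` have the same cardinality. -/
theorem s52lt_card_torsion {W : Affine F} {W₂ : Affine K} (hW : W.map f = W₂) (n : ℕ)
    (hall : ∀ P : W₂.Point, n • P = 0 →
      P = 0 ∨ ∃ (x y : F) (h : W₂.Nonsingular (f x) (f y)), P = .some (f x) (f y) h) :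
    Nat.card {Q : W.Point // n • Q = 0} = Nat.card {P : W₂.Point // n • P = 0} := by
  refine Nat.card_congr (Equiv.ofBijective
    (fun Q => ⟨s52lt_pmap f hW Q.1, (s52lt_pmap_nsmul_eq_zero_iff f hW n Q.1).2 Q.2⟩) ⟨?_, ?_⟩)
  · intro Q Q' h
    exact Subtype.ext (s52lt_pmap_injective f hW (congrArg Subtype.val h))
  · rintro ⟨P, hP⟩
    obtain ⟨Q, rfl⟩ := (s52lt_pmap_range f hW P).2 (hall P hP)
    exact ⟨⟨Q, (s52lt_pmap_nsmul_eq_zero_iff f hW n Q).1 hP⟩, rfl⟩

end Map

section Twist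

variable {K : Type*} [Field K] [DecidableEq K] (A B e : K)

/-- The change of variables `u = e⁻¹`. -/
def s52lt_vc (he : e ≠ 0) : VariableChange K := ⟨(Units.mk0 e he)⁻¹, 0, 0, 0⟩

theorem s52lt_vc_smul (he : e ≠ 0) :
    s52lt_vc e he • s52n_short A B = s52n_short (A * e ^ 4) (B * e ^ 6) := by
  ext <;>
    simp [s52lt_vc, s52n_short, WeierstrassCurve.variableChange_a₁,
      WeierstrassCurve.variableChange_a₂, WeierstrassCurve.variableChange_a₃,
      WeierstrassCurve.variableChange_a₄, WeierstrassCurve.variableChange_a₆] <;> ring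


theorem s52lt_short_Δ_ne_zero (hΔ : 4 * A ^ 3 + 27 * B ^ 2 ≠ 0) (h2 : (2 : K) ≠ 0) :
    (s52n_short A B).Δ ≠ 0 := by
  rw [s52n_short_Δ]
  refine mul_ne_zero ?_ hΔ
  have : (-16 : K) = -(2 ^ 4) := by norm_num
  rw [this]
  exact neg_ne_zero.mpr (pow_ne_zero _ h2)

/-- The twist map as an additive homomorphism. -/
noncomputable def s52lt_twistHom (he : e ≠ 0) (hΔ : (s52n_short A B).Δ ≠ 0) :
    (s52n_short A B).toAffine.Point →+ (s52n_short (A * e ^ 4) (B * e ^ 6)).toAffine.Point where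
  toFun := Fermat.Agent.LR.lrvc_map (s52lt_vc e he) (s52n_short A B).toAffine
    (s52lt_vc_smul A B e he) hΔ
  map_zero' := rfl
  map_add' := Fermat.Agent.LR.lrvc_map_add (s52lt_vc e he) (s52n_short A B).toAffine
    (s52lt_vc_smul A B e he) hΔ

/-- **The twist map** `(x, y) ↦ (e² x, e³ y)` from `y² = x³ + A x + B` to
`y² = x³ + A e⁴ x + B e⁶`. -/
noncomputable def s52lt_twist (he : e ≠ 0) (hΔ : (s52n_short A B).Δ ≠ 0) :
    (s52n_short A B).toAffine.Point ≃+ (s52n_short (A * e ^ 4) (B * e ^ 6)).toAffine.Point :=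
  AddEquiv.ofBijective (s52lt_twistHom A B e he hΔ)
    ⟨Fermat.Agent.LR.lrvc_map_injective (s52lt_vc e he) (s52n_short A B).toAffine
        (s52lt_vc_smul A B e he) hΔ,
      Fermat.Agent.LR.lrvc_map_surjective (s52lt_vc e he) (s52n_short A B).toAffine
        (s52lt_vc_smul A B e he) hΔ⟩

theorem s52lt_twist_apply (he : e ≠ 0) (hΔ : (s52n_short A B).Δ ≠ 0)
    (P : (s52n_short A B).toAffine.Point) :
    s52lt_twist A B e he hΔ P =
      Fermat.Agent.LR.lrvc_map (s52lt_vc e he) (s52n_short A B).toAffine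
        (s52lt_vc_smul A B e he) hΔ P := rfl

theorem s52lt_twist_zero (he : e ≠ 0) (hΔ : (s52n_short A B).Δ ≠ 0) :
    s52lt_twist A B e he hΔ 0 = 0 := _root_.map_zero _

/-- The coordinates of the twisted point. -/
theorem s52lt_twist_some (he : e ≠ 0) (hΔ : (s52n_short A B).Δ ≠ 0) {x y : K}
    (h : (s52n_short A B).toAffine.Nonsingular x y) :
    ∃ h' : (s52n_short (A * e ^ 4) (B * e ^ 6)).toAffine.Nonsingular (e ^ 2 * x) (e ^ 3 * y),
      s52lt_twist A B e he hΔ (.some x y h) = .some (e ^ 2 * x) (e ^ 3 * y) h' := by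
  have hX : Fermat.Agent.LR.lrvc_X (s52lt_vc e he) x = e ^ 2 * x := by
    simp [Fermat.Agent.LR.lrvc_X, s52lt_vc]
  have hY : Fermat.Agent.LR.lrvc_Y (s52lt_vc e he) x y = e ^ 3 * y := by
    simp [Fermat.Agent.LR.lrvc_Y, s52lt_vc]
  have h1 := s52lt_vc_smul A B e he ▸ Fermat.Agent.LR.lrvc_nonsingular (s52lt_vc e he)
    (s52n_short A B).toAffine hΔ h
  have h' : (s52n_short (A * e ^ 4) (B * e ^ 6)).toAffine.Nonsingular (e ^ 2 * x) (e ^ 3 * y) := by
    rw [← hX, ← hY]; exact h1
  refine ⟨h', ?_⟩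
  rw [s52lt_twist_apply, Fermat.Agent.LR.lrvc_map_some]
  exact (Fermat.Agent.LR.lrvc_some_congr _ _ hX.symm hY.symm).symm

theorem s52lt_twist_nsmul_eq_zero_iff (he : e ≠ 0) (hΔ : (s52n_short A B).Δ ≠ 0) (n : ℕ)
    (P : (s52n_short A B).toAffine.Point) :
    n • s52lt_twist A B e he hΔ P = 0 ↔ n • P = 0 := by
  rw [← map_nsmul]
  exact (s52lt_twist A B e he hΔ).map_eq_zero_iff

end Twist

end Fermat.Agent.S52
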